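import Fermat.Agent.S48.Eis.Defs

set_option autoImplicit false

open UpperHalfPlane hiding I
open Complex Real Filter Topology
open scoped MatrixGroups ModularForm Manifold

noncomputable section

namespace Fermat.Agent.S48.Eis

/-- With `u = e^{2πiw}`: `cot (πw) + i = -2i u / (1 - u)` (`Complex.cot_pi_eq_exp_ratio`), valid
whenever `u ≠ 1`. -/
theorem cot_add_I_eq (w : ℂ) (hw : cexp (2 * π * I * w) ≠ 1) :
    cot (π * w) + I = -2 * I * cexp (2 * π * I * w) / (1 - cexp (2 * π * I * w)) := by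
  have h1 : 1 - cexp (2 * π * I * w) ≠ 0 := sub_ne_zero.2 (Ne.symm hw)
  rw [Complex.cot_pi_eq_exp_ratio]
  have hI : I ≠ 0 := Complex.I_ne_zero
  field_simp
  ring_nf
  rw [Complex.I_sq]
  ring

/-- `‖u‖ = e^{-2π im w} < 1` and `‖1 - u‖ ≥ 1 - ‖u‖`. -/
theorem norm_cot_add_I_le (w : ℂ) (hw : 0 < w.im) :
    ‖cot (π * w) + I‖ ≤ 2 * rexp (-2 * π * w.im) / (1 - rexp (-2 * π * w.im)) := by
  have hu : ‖cexp (2 * π * I * w)‖ = rexp (-2 * π * w.im) := by
    rw [Complex.norm_exp]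
    congr 1
    simp
  have hlt : rexp (-2 * π * w.im) < 1 := by
    rw [Real.exp_lt_one_iff]
    nlinarith [Real.pi_pos]
  have hne : cexp (2 * π * I * w) ≠ 1 := by
    intro h
    rw [h, norm_one] at hu
    linarith
  rw [cot_add_I_eq w hne, norm_div, norm_mul, norm_mul, norm_neg, Complex.norm_I, hu]
  have h2 : ‖(2 : ℂ)‖ = 2 := by simp
  rw [h2, mul_one]
  have h3 : 1 - rexp (-2 * π * w.im) ≤ ‖1 - cexp (2 * π * I * w)‖ := by
    have := norm_sub_norm_le (1 : ℂ) (cexp (2 * π * I * w))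
    rwa [norm_one, hu] at this
  exact div_le_div_of_nonneg_left (by positivity) (by linarith) h3

/-- Monotone version: if `im w ≥ m δ` with `m ≥ 1`, `δ > 0`, then with `ρ = e^{-2πδ}`:
`‖cot (πw) + i‖ ≤ 2 ρ^m / (1 - ρ)`. -/
theorem norm_cot_add_I_le' (w : ℂ) (δ : ℝ) (hδ : 0 < δ) (m : ℕ) (hm : 1 ≤ m)
    (hw : m * δ ≤ w.im) :
    ‖cot (π * w) + I‖ ≤ 2 * rexp (-2 * π * δ) ^ m / (1 - rexp (-2 * π * δ)) := by
  have hm0 : (1 : ℝ) ≤ m := by exact_mod_cast hm
  have hw0 : 0 < w.im := lt_of_lt_of_le (by positivity) hw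
  refine (norm_cot_add_I_le w hw0).trans ?_
  have hρ1 : rexp (-2 * π * δ) < 1 := by
    rw [Real.exp_lt_one_iff]
    nlinarith [Real.pi_pos]
  have hρ0 : 0 ≤ rexp (-2 * π * δ) := (Real.exp_pos _).le
  have h1 : rexp (-2 * π * w.im) ≤ rexp (-2 * π * δ) ^ m := by
    rw [← Real.exp_nat_mul, Real.exp_le_exp]
    nlinarith [Real.pi_pos]
  have h2 : rexp (-2 * π * δ) ^ m ≤ rexp (-2 * π * δ) := by
    calc rexp (-2 * π * δ) ^ m ≤ rexp (-2 * π * δ) ^ 1 :=
          pow_le_pow_of_le_one hρ0 hρ1.le hm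
      _ = rexp (-2 * π * δ) := pow_one _
  exact div_le_div₀ (by positivity) (by linarith) (by linarith) (by linarith)

/-- `im (z + Mτ) → ∞`, then `norm_cot_add_I_le` and squeeze. -/
theorem tendsto_cot_add (τ : ℍ) (z : ℂ) :
    Tendsto (fun M : ℕ => cot (π * (z + M * τ))) atTop (𝓝 (-I)) := by
  have hτ : 0 < τ.im := τ.im_pos
  have hδ0 : 0 < τ.im / 2 := by positivity
  have hρ0 : 0 ≤ rexp (-2 * π * (τ.im / 2)) := (Real.exp_pos _).le
  have hρ1 : rexp (-2 * π * (τ.im / 2)) < 1 := by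
    rw [Real.exp_lt_one_iff]
    nlinarith [Real.pi_pos]
  have hlim : Tendsto (fun M : ℕ => 2 * rexp (-2 * π * (τ.im / 2)) ^ M /
      (1 - rexp (-2 * π * (τ.im / 2)))) atTop (𝓝 0) := by
    have := ((tendsto_pow_atTop_nhds_zero_of_lt_one hρ0 hρ1).const_mul 2).div_const
      (1 - rexp (-2 * π * (τ.im / 2)))
    simpa using this
  rw [tendsto_iff_norm_sub_tendsto_zero]
  refine squeeze_zero' (Eventually.of_forall fun _ => norm_nonneg _) ?_ hlim
  obtain ⟨M0, hM0⟩ := exists_nat_ge (max 1 (-z.im / (τ.im / 2)))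
  filter_upwards [eventually_ge_atTop M0] with M hM
  rw [sub_neg_eq_add]
  have hMR : (M0 : ℝ) ≤ M := by exact_mod_cast hM
  have h1 : (1 : ℝ) ≤ M := (le_max_left _ _).trans (hM0.trans hMR)
  have h2 : -z.im / (τ.im / 2) ≤ M := (le_max_right _ _).trans (hM0.trans hMR)
  apply norm_cot_add_I_le' _ (τ.im / 2) hδ0 M (by exact_mod_cast h1)
  rw [div_le_iff₀ hδ0] at h2
  have h3 : (z + M * (τ : ℂ)).im = z.im + M * τ.im := by
    simp
  rw [h3]
  nlinarith

/-- `cot (π (z - Mτ)) = - cot (π (-z + Mτ))`, then `tendsto_cot_add`. -/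
theorem tendsto_cot_sub (τ : ℍ) (z : ℂ) :
    Tendsto (fun M : ℕ => cot (π * (z - M * τ))) atTop (𝓝 I) := by
  have h := (tendsto_cot_add τ (-z)).neg
  rw [neg_neg] at h
  refine h.congr (fun M => ?_)
  rw [show (π : ℂ) * (z - M * τ) = -(π * (-z + M * τ)) by ring, Complex.cot_eq_cos_div_sin,
    Complex.cot_eq_cos_div_sin, Complex.cos_neg, Complex.sin_neg, div_neg]

end Fermat.Agent.S48.Eis
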