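import Fermat.Agent.S48.Eis.Cot.IntSum

set_option autoImplicit false

open UpperHalfPlane hiding I
open Complex Real Filter Topology
open scoped MatrixGroups ModularForm Manifold

noncomputable section

namespace Fermat.Agent.S48.Eis

theorem Inner_mem_integerComplement (τ : ℍ) (z : ℂ) (hz : NotLat τ z) (m : ℤ) :
    z + m * τ ∈ integerComplement := by
  rintro ⟨k, hk⟩
  apply hz m (-k)
  push_cast
  rw [← hk]
  ring

theorem Inner_mul_mem_integerComplement (τ : ℍ) (m : ℤ) (hm : m ≠ 0) :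
    (m : ℂ) * τ ∈ integerComplement := by
  rintro ⟨k, hk⟩
  have h := congrArg Complex.im hk
  simp only [intCast_im, mul_im, intCast_re, coe_im, zero_mul, add_zero] at h
  have h1 : (m : ℝ) ≠ 0 := by exact_mod_cast hm
  have h2 := τ.im_pos.ne'
  exact (mul_ne_zero h1 h2) h.symm

theorem Inner_hasSum_e2 (τ : ℍ) (m : ℤ) :
    HasSum (fun n : ℤ => 1 / ((m : ℂ) * τ + n) ^ 2) (EisensteinSeries.e2Summand m τ) := by
  have h : HasSum (fun n : ℤ => EisensteinSeries.eisSummand 2 ![m, n] τ)
      (EisensteinSeries.e2Summand m τ) := (EisensteinSeries.e2Summand_summable m τ).hasSum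
  have e : (fun n : ℤ => EisensteinSeries.eisSummand 2 ![m, n] τ) =
      fun n : ℤ => 1 / ((m : ℂ) * τ + n) ^ 2 := by
    funext n
    simp only [EisensteinSeries.eisSummand, Matrix.cons_val_zero, Matrix.cons_val_one,
      Matrix.cons_val_fin_one, one_div]
    rw [zpow_neg]
    norm_cast
  rw [e] at h
  exact h

/-- The inner sum (over `n`) of the zeta series.  NB `cot 0 = 0` in Lean, so the formula is uniform
in `m`.  Proof.  `zTerm τ z ![m,n] = (1/(z+mτ+n) - 1/n) - (1/(mτ+n) - 1/n) + z (mτ+n)⁻²`.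
If `m ≠ 0`: `hasSum_int_cot` for `w = z + mτ` and for `w = mτ`
(both in `integerComplement`: the first by `hz`, the second since `im (mτ) ≠ 0`), and
`(EisensteinSeries.e2Summand_summable m τ).hasSum.mul_left z` (unfold `eisSummand`).
If `m = 0`: `zTerm τ z ![0,n] = (1/(z+n) - 1/n) + z n⁻²`. -/
theorem hasSum_inner (τ : ℍ) (z : ℂ) (hz : NotLat τ z) (m : ℤ) :
    HasSum (fun n : ℤ => zTerm τ z ![m, n])
      (π * cot (π * (z + m * τ)) - π * cot (π * (m * τ)) + z * EisensteinSeries.e2Summand m τ) := by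
  have h1 := hasSum_int_cot _ (Inner_mem_integerComplement τ z hz m)
  have h3 := (Inner_hasSum_e2 τ m).mul_left z
  by_cases hm : m = 0
  · subst hm
    have h := h1.add h3
    have e0 : π * cot (π * (((0 : ℤ) : ℂ) * (τ : ℂ))) = 0 := by
      simp [Complex.cot]
    rw [e0, sub_zero]
    have e : (fun n : ℤ => zTerm τ z ![0, n]) = fun b : ℤ =>
        1 / (z + ((0 : ℤ) : ℂ) * ↑τ + ↑b) - 1 / (b : ℂ) +
          z * (1 / (((0 : ℤ) : ℂ) * ↑τ + ↑b) ^ 2) := by
      funext n
      simp only [zTerm, lp, Matrix.cons_val_zero, Matrix.cons_val_one, Matrix.cons_val_fin_one,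
        Int.cast_zero, zero_mul, zero_add, add_zero]
      ring
    rw [e]
    exact h
  · have h2 := hasSum_int_cot _ (Inner_mul_mem_integerComplement τ m hm)
    have h := (h1.sub h2).add h3
    have e : (fun n : ℤ => zTerm τ z ![m, n]) = fun b : ℤ =>
        1 / (z + ↑m * ↑τ + ↑b) - 1 / (b : ℂ) - (1 / (↑m * ↑τ + ↑b) - 1 / (b : ℂ)) +
          z * (1 / ((m : ℂ) * ↑τ + ↑b) ^ 2) := by
      funext n
      simp only [zTerm, lp, Matrix.cons_val_zero, Matrix.cons_val_one, Matrix.cons_val_fin_one]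
      ring
    rw [e]
    exact h

end Fermat.Agent.S48.Eis
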