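import Fermat.Agent.S48.Eis.Defs

set_option autoImplicit false

open UpperHalfPlane hiding I
open Complex Real Filter Topology
open scoped MatrixGroups ModularForm Manifold

noncomputable section

namespace Fermat.Agent.S48.Eis

theorem IntSum_add_ne_zero (w : ℂ) (hw : w ∈ integerComplement) (n : ℤ) : w + n ≠ 0 := by
  intro h
  apply hw
  refine ⟨-n, ?_⟩
  push_cast
  linear_combination -h

theorem IntSum_summable (w : ℂ) (hw : w ∈ integerComplement) :
    Summable (fun n : ℤ => 1 / (w + n) - 1 / (n : ℂ)) := by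
  have h1 : Summable fun n : ℤ ↦ ((((1 : ℤ) : ℂ) * w + n) * (((0 : ℤ) : ℂ) * w + n))⁻¹ := by
    apply EisensteinSeries.summable_inv_of_isBigO_rpow_inv (a := 2) (by norm_cast)
    simpa [pow_two] using (EisensteinSeries.linear_inv_isBigO_right 0 w).mul
      (EisensteinSeries.linear_inv_isBigO_right 1 w)
  refine (h1.mul_left (-w)).congr_cofinite ?_
  have : ∀ᶠ n : ℤ in cofinite, n ≠ 0 := (Set.finite_singleton (0 : ℤ)).compl_mem_cofinite
  filter_upwards [this] with n hn
  have h2 : (n : ℂ) ≠ 0 := by exact_mod_cast hn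
  have h3 := IntSum_add_ne_zero w hw n
  simp only [Int.cast_one, one_mul, Int.cast_zero, zero_mul, zero_add]
  field_simp
  ring

/-- Mittag-Leffler expansion of the cotangent as an (absolutely convergent) sum over `ℤ`; the
term `n = 0` is `1 / w` since `1 / 0 = 0`.  Proof: `1/(w+n) - 1/n = -w/(n (w+n))` is summable
(`EisensteinSeries.summable_linear_...` or comparison with `1/n²`); split `ℤ` into `0`, `n+1`,
`-(n+1)` (`HasSum.of_nat_of_neg_add_one` / `tsum_int_eq_zero_add_tsum_pnat`) and use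
`cot_series_rep'`. -/
theorem hasSum_int_cot (w : ℂ) (hw : w ∈ integerComplement) :
    HasSum (fun n : ℤ => 1 / (w + n) - 1 / (n : ℂ)) (π * cot (π * w)) := by
  have hs := IntSum_summable w hw
  have h1 := hs.hasSum.nat_add_neg
  have h2 := (hasSum_nat_add_iff' 1).2 h1
  have h3 : HasSum (fun n : ℕ => (1 / (w - (n + 1)) + 1 / (w + (n + 1)))) (π * cot (π * w) - 1 / w) := by
    rw [cot_series_rep' hw]
    exact (summable_cotTerm hw).hasSum
  have h4 : (fun n : ℕ => (1 / (w - (n + 1)) + 1 / (w + (n + 1)))) =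
      fun n : ℕ => (1 / (w + ((n + 1 : ℕ) : ℤ)) - 1 / (((n + 1 : ℕ) : ℤ) : ℂ)) +
        (1 / (w + ((-((n + 1 : ℕ) : ℤ) : ℤ) : ℂ)) - 1 / ((-((n + 1 : ℕ) : ℤ) : ℤ) : ℂ)) := by
    funext n
    push_cast
    have : ((n : ℂ) + 1) ≠ 0 := by exact_mod_cast Nat.succ_ne_zero n
    rw [← sub_eq_add_neg w]
    have e : (1 : ℂ) / -((n : ℂ) + 1) = - (1 / ((n : ℂ) + 1)) := by
      rw [div_neg]
    rw [e]
    ring
  rw [h4] at h3
  have h5 := h3.unique h2
  simp only [Finset.range_one, Finset.sum_singleton, Nat.cast_zero, Int.cast_zero, add_zero,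
    neg_zero, div_zero, sub_zero] at h5
  have h6 : π * cot (π * w) = ∑' n : ℤ, (1 / (w + n) - 1 / (n : ℂ)) := by
    linear_combination h5
  rw [h6]
  exact hs.hasSum

end Fermat.Agent.S48.Eis
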