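import Fermat.Agent.S48.Eis.Cot.OuterA

set_option autoImplicit false

open UpperHalfPlane hiding I
open Complex Real Filter Topology
open scoped MatrixGroups ModularForm Manifold

noncomputable section

namespace Fermat.Agent.S48.Eis

theorem Outer_cot_neg (x : ℂ) : cot (-x) = -cot x := by
  simp only [Complex.cot, Complex.cos_neg, Complex.sin_neg, div_neg]

/-- **Eisenstein summation.**  `K τ z = lim_M ∑_{|m| ≤ M} π cot (π (z + mτ))`.
Proof: `tendsto_sum_Icc_of_hasSum` applied to `hasSum_outer`, minus `z` times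
`tendsto_sum_Icc_e2Summand`; the terms `π cot (π m τ)` cancel by `sum_Icc_odd`
(`Complex.cot_neg`... ). -/
theorem tendsto_K (τ : ℍ) (z : ℂ) (hz : NotLat τ z) :
    Tendsto (fun M : ℕ => ∑ m ∈ Finset.Icc (-(M : ℤ)) M, π * cot (π * (z + m * τ))) atTop
      (𝓝 (K τ z)) := by
  have h1 := tendsto_sum_Icc_of_hasSum _ _ (hasSum_outer τ z hz)
  have h2 := (tendsto_sum_Icc_e2Summand τ).const_mul z
  have h3 := h1.sub h2
  have e : (fun M : ℕ => ∑ m ∈ Finset.Icc (-(M : ℤ)) M, π * cot (π * (z + m * τ))) =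
      fun M : ℕ => (∑ m ∈ Finset.Icc (-(M : ℤ)) M,
        (π * cot (π * (z + m * τ)) - π * cot (π * (m * τ)) +
          z * EisensteinSeries.e2Summand m τ)) -
        z * ∑ m ∈ Finset.Icc (-(M : ℤ)) M, EisensteinSeries.e2Summand m τ := by
    funext M
    have hodd := sum_Icc_odd (fun m : ℤ => π * cot (π * (m * τ))) (by
      intro m
      have : (π : ℂ) * (((-m : ℤ) : ℂ) * τ) = -(π * (m * τ)) := by push_cast; ring
      rw [this, Outer_cot_neg]
      ring) M
    rw [Finset.sum_add_distrib, Finset.sum_sub_distrib, hodd, Finset.mul_sum]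
    ring
  rw [e]
  exact h3

/-- Splitting a symmetric sum. -/
theorem sum_Icc_eq_pairs (f : ℤ → ℂ) (M : ℕ) :
    ∑ m ∈ Finset.Icc (-(M : ℤ)) M, f m =
      f 0 + ∑ m ∈ Finset.range M, (f ((m : ℤ) + 1) + f (-((m : ℤ) + 1))) := by
  induction M with
  | zero => simp
  | succ M ih =>
    rw [Nat.cast_add, Nat.cast_one, Finset.sum_Icc_succ_eq_add_endpoints, ih,
      Finset.sum_range_succ]
    ring

/-- The same limit, pairing `m` and `-m`. -/
theorem tendsto_K' (τ : ℍ) (z : ℂ) (hz : NotLat τ z) :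
    Tendsto (fun M : ℕ => ∑ m ∈ Finset.range M,
      (π * cot (π * (z + ((m : ℂ) + 1) * τ)) + π * cot (π * (z - ((m : ℂ) + 1) * τ)))) atTop
      (𝓝 (K τ z - π * cot (π * z))) := by
  have h := (tendsto_K τ z hz).sub_const (π * cot (π * z))
  have e : (fun M : ℕ => ∑ m ∈ Finset.range M,
      (π * cot (π * (z + ((m : ℂ) + 1) * τ)) + π * cot (π * (z - ((m : ℂ) + 1) * τ)))) =
      fun M : ℕ => (∑ m ∈ Finset.Icc (-(M : ℤ)) M, π * cot (π * (z + m * τ))) -
        π * cot (π * z) := by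
    funext M
    rw [sum_Icc_eq_pairs (fun m : ℤ => π * cot (π * (z + m * τ)))]
    simp only [Int.cast_zero, zero_mul, add_zero, add_sub_cancel_left]
    refine Finset.sum_congr rfl (fun m _ => ?_)
    push_cast
    have : z + -((m : ℂ) + 1) * τ = z - ((m : ℂ) + 1) * τ := by ring
    rw [this]
  rw [e]
  exact h

end Fermat.Agent.S48.Eis
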