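import Fermat.Agent.S48.Eis.Cot.Inner
import Fermat.Agent.S48.Eis.Zeta.Summable

set_option autoImplicit false

open UpperHalfPlane hiding I
open Complex Real Filter Topology
open scoped MatrixGroups ModularForm Manifold

noncomputable section

namespace Fermat.Agent.S48.Eis

/-- Fubini: `(summable_zTerm τ z).hasSum`, transported along `(finTwoArrowEquiv ℤ).symm` to `ℤ × ℤ`,
then `HasSum.prod_fiberwise` with `hasSum_inner`. -/
theorem hasSum_outer (τ : ℍ) (z : ℂ) (hz : NotLat τ z) :
    HasSum (fun m : ℤ => π * cot (π * (z + m * τ)) - π * cot (π * (m * τ)) +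
      z * EisensteinSeries.e2Summand m τ) (wz τ z) := by
  have h : HasSum (zTerm τ z) (wz τ z) := (summable_zTerm τ z).hasSum
  have h2 : HasSum (fun p : ℤ × ℤ => zTerm τ z ![p.1, p.2]) (wz τ z) := by
    have := ((finTwoArrowEquiv ℤ).symm.hasSum_iff (f := zTerm τ z) (a := wz τ z)).2 h
    simpa [Function.comp_def] using this
  exact h2.prod_fiberwise (fun m => hasSum_inner τ z hz m)

/-- An unconditionally convergent sum over `ℤ` is the limit of its symmetric partial sums
(`Finset.Icc (-M) M` tends to `atTop` in `Finset ℤ`; see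
`Mathlib/Topology/Algebra/InfiniteSum/ConditionalInt.lean`, `SummationFilter.symmetricIcc`). -/
theorem tendsto_sum_Icc_of_hasSum (f : ℤ → ℂ) (s : ℂ) (h : HasSum f s) :
    Tendsto (fun M : ℕ => ∑ m ∈ Finset.Icc (-(M : ℤ)) M, f m) atTop (𝓝 s) := by
  have h1 : Tendsto (fun M : ℕ => Finset.Icc (-(M : ℤ)) M) atTop atTop := by
    have h0 := (SummationFilter.symmetricIcc ℤ).le_atTop
    rw [SummationFilter.symmetricIcc_eq_map_Icc_nat] at h0
    exact h0
  exact h.comp h1

/-- From `EisensteinSeries.hasSum_e2Summand_symmetricIcc`, `EisensteinSeries.G2_eq_tsum_cexp`,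
`SummationFilter.symmetricIcc_eq_map_Icc_nat`. -/
theorem tendsto_sum_Icc_e2Summand (τ : ℍ) :
    Tendsto (fun M : ℕ => ∑ m ∈ Finset.Icc (-(M : ℤ)) M, EisensteinSeries.e2Summand m τ) atTop
      (𝓝 (EisensteinSeries.G2 τ)) := by
  have h := EisensteinSeries.hasSum_e2Summand_symmetricIcc τ
  rw [← EisensteinSeries.G2_eq_tsum_cexp] at h
  exact SummationFilter.hasSum_symmetricIcc_iff.1 h

/-- The sum of an odd function over a symmetric interval vanishes. -/
theorem sum_Icc_odd (f : ℤ → ℂ) (hf : ∀ m, f (-m) = -f m) (M : ℕ) :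
    ∑ m ∈ Finset.Icc (-(M : ℤ)) M, f m = 0 := by
  have h : ∑ m ∈ Finset.Icc (-(M : ℤ)) M, f m = ∑ m ∈ Finset.Icc (-(M : ℤ)) M, f (-m) := by
    refine Finset.sum_bij (fun m _ => -m) ?_ ?_ ?_ ?_
    · intro a ha
      simp only [Finset.mem_Icc] at ha ⊢
      omega
    · intro a _ b _ hab
      exact neg_injective hab
    · intro b hb
      refine ⟨-b, ?_, neg_neg b⟩
      simp only [Finset.mem_Icc] at hb ⊢
      omega
    · intro a _
      rw [neg_neg]
  have h2 : ∑ m ∈ Finset.Icc (-(M : ℤ)) M, f (-m) = - ∑ m ∈ Finset.Icc (-(M : ℤ)) M, f m := by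
    rw [← Finset.sum_neg_distrib]
    exact Finset.sum_congr rfl (fun m _ => hf m)
  rw [h2] at h
  have h3 : (2 : ℂ) * ∑ m ∈ Finset.Icc (-(M : ℤ)) M, f m = 0 := by linear_combination h
  rcases mul_eq_zero.1 h3 with h4 | h4
  · norm_num at h4
  · exact h4

end Fermat.Agent.S48.Eis
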